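import Mathlib
import Fermat.Agent.Lib.Dim_LinAlg

/-!
# Dimension bound for cocycles with values in a permutation representation
-/

set_option autoImplicit false

open Module Fermat.Agent.DimAux

namespace Fermat.Agent.S21Aux

noncomputable section

variable {G : Type*} [Group G] {X : Type*} [Fintype X] [DecidableEq X] [MulAction G X]

/-- `v ↦ v ∘ (g • ·)` -/
abbrev Rop (g : G) : Module.End ℂ (X → ℂ) := permOp (MulAction.toPerm g)

theorem Rop_apply (g : G) (v : X → ℂ) (x : X) : Rop g v x = v (g • x) := rfl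

theorem Rop_mul (g h : G) : (Rop (g * h) : Module.End ℂ (X → ℂ)) = Rop h * Rop g := by
  ext v x
  simp only [LinearMap.coe_comp, Function.comp_apply, Module.End.mul_apply, Rop_apply, mul_smul]

theorem Rop_one : (Rop (1 : G) : Module.End ℂ (X → ℂ)) = 1 := by
  ext v x
  simp only [LinearMap.coe_comp, Function.comp_apply, Module.End.one_apply, Rop_apply, one_smul]

theorem Rop_pow (g : G) (n : ℕ) : (Rop (g ^ n) : Module.End ℂ (X → ℂ)) = Rop g ^ n := by
  induction n with
  | zero => rw [pow_zero, pow_zero, Rop_one]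
  | succ n ih => rw [pow_succ, Rop_mul, ih, pow_succ']

theorem Rop_eq_one_of_trivial {g : G} (h : ∀ x : X, g • x = x) :
    (Rop g : Module.End ℂ (X → ℂ)) = 1 := by
  ext v x
  simp only [LinearMap.coe_comp, Function.comp_apply, Module.End.one_apply, Rop_apply, h]

/-- kernel of the norm operator `1 + R + ... + R^(n-1)` -/
def Kn (g : G) (n : ℕ) : Submodule ℂ (X → ℂ) :=
  LinearMap.ker (∑ i ∈ Finset.range n, (Rop g : Module.End ℂ (X → ℂ)) ^ i)

theorem finrank_Kn_add_orb_le (g : G) (n : ℕ) (hn : 0 < n) :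
    finrank ℂ (Kn (X := X) g n) + orb (MulAction.toPerm g : Equiv.Perm X) ≤ Fintype.card X := by
  rw [← finrank_invariants, ← Module.finrank_fintype_fun_eq_card (R := ℂ) (η := X)]
  apply Submodule.finrank_add_finrank_le_of_disjoint
  rw [Submodule.disjoint_def]
  intro v hv hv'
  rw [Module.End.mem_eigenspace_iff, one_smul] at hv'
  have hpow : ∀ i : ℕ, ((Rop g : Module.End ℂ (X → ℂ)) ^ i) v = v := by
    intro i
    induction i with
    | zero => simp
    | succ i ih => rw [pow_succ, Module.End.mul_apply, hv', ih]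
  have h1 : (∑ i ∈ Finset.range n, (Rop g : Module.End ℂ (X → ℂ)) ^ i) v = 0 := hv
  rw [LinearMap.sum_apply] at h1
  simp only [hpow, Finset.sum_const, Finset.card_range] at h1
  have hn' : (n : ℂ) ≠ 0 := by exact_mod_cast hn.ne'
  rw [← Nat.cast_smul_eq_nsmul ℂ] at h1
  exact (smul_eq_zero.mp h1).resolve_left hn'

theorem Rop_sub_mem_Kn {g : G} {n : ℕ} (h : ∀ x : X, g ^ n • x = x) (v : X → ℂ) :
    Rop g v - v ∈ Kn (X := X) g n := by
  show (∑ i ∈ Finset.range n, (Rop g : Module.End ℂ (X → ℂ)) ^ i) (Rop g v - v) = 0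
  have h1 : (∑ i ∈ Finset.range n, (Rop g : Module.End ℂ (X → ℂ)) ^ i) * (Rop g - 1)
      = Rop g ^ n - 1 := geom_sum_mul _ _
  have h2 : Rop g v - v = ((Rop g : Module.End ℂ (X → ℂ)) - 1) v := by
    simp
  rw [h2, ← Module.End.mul_apply, h1, ← Rop_pow, Rop_eq_one_of_trivial h, sub_self]
  rfl

/-- (right) cocycles -/
def IsCocycle (c : G → X → ℂ) : Prop := ∀ g h, c (g * h) = Rop h (c g) + c h

namespace IsCocycle

variable {c : G → X → ℂ}

theorem one (hc : IsCocycle c) : c 1 = 0 := by
  have := hc 1 1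
  rw [mul_one, Rop_one, Module.End.one_apply] at this
  simpa using this

theorem pow (hc : IsCocycle c) (g : G) (n : ℕ) :
    c (g ^ n) = (∑ i ∈ Finset.range n, (Rop g : Module.End ℂ (X → ℂ)) ^ i) (c g) := by
  induction n with
  | zero => simp [hc.one]
  | succ n ih =>
    rw [pow_succ, hc, ih, Finset.sum_range_succ', LinearMap.add_apply, pow_zero,
      Module.End.one_apply, LinearMap.sum_apply, LinearMap.sum_apply, map_sum]
    congr 1
    refine Finset.sum_congr rfl fun i _ => ?_
    rw [pow_succ', Module.End.mul_apply]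

theorem mem_Kn (hc : IsCocycle c) {g : G} {n : ℕ} (h : c (g ^ n) = 0) : c g ∈ Kn (X := X) g n := by
  show _ = _
  rw [← hc.pow, h]

theorem inv (hc : IsCocycle c) {g : G} (h : c g = 0) : c g⁻¹ = 0 := by
  have := hc g g⁻¹
  rw [mul_inv_cancel, hc.one, h, map_zero, zero_add] at this
  exact this.symm

theorem eq_zero_of_closure (hc : IsCocycle c) {s : Set G} (hs : Subgroup.closure s = ⊤)
    (h : ∀ g ∈ s, c g = 0) (g : G) : c g = 0 := by
  have hg : g ∈ Subgroup.closure s := hs ▸ Subgroup.mem_top g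
  induction hg using Subgroup.closure_induction with
  | mem x hx => exact h x hx
  | one => exact hc.one
  | mul x y _ _ hx hy => rw [hc, hx, hy, map_zero, zero_add]
  | inv x _ hx => exact hc.inv hx

theorem add {c' : G → X → ℂ} (hc : IsCocycle c) (hc' : IsCocycle c') : IsCocycle (c + c') := by
  intro g h
  simp only [Pi.add_apply, hc g h, hc' g h, map_add]
  abel

end IsCocycle

theorem isCocycle_cobdry (v : X → ℂ) : IsCocycle (fun g : G => Rop g v - v) := by
  intro g h
  simp only [Rop_mul, Module.End.mul_apply, map_sub]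
  abel

end

end Fermat.Agent.S21Aux
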