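import Mathlib
import Fermat.Agent.S21.LinAlg

/-!
# Abstract dimension bound for parabolic cocycles
-/

set_option autoImplicit false

open Module Fermat.Agent.DimAux

namespace Fermat.Agent.S21Aux

noncomputable section

variable {G : Type*} [Group G] {X : Type*} [Fintype X] [DecidableEq X] [MulAction G X]

theorem Rop_sub_mem_sup {S U : G} (hgen : Subgroup.closure {S, U} = ⊤)
    (hS : ∀ x : X, S ^ 2 • x = x) (hU3 : ∀ x : X, U ^ 3 • x = x) (g : G) (v : X → ℂ) :
    Rop g v - v ∈ Kn (X := X) S 2 ⊔ Kn (X := X) U 3 := by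
  have hg : g ∈ Subgroup.closure {S, U} := hgen ▸ Subgroup.mem_top g
  induction hg using Subgroup.closure_induction generalizing v with
  | mem x hx =>
    rcases hx with rfl | rfl
    · exact Submodule.mem_sup_left (Rop_sub_mem_Kn hS v)
    · exact Submodule.mem_sup_right (Rop_sub_mem_Kn hU3 v)
  | one => rw [Rop_one]; simp
  | mul x y _ _ hx hy =>
    have : Rop (x * y) v - v = (Rop y (Rop x v) - Rop x v) + (Rop x v - v) := by
      rw [Rop_mul, Module.End.mul_apply]; abel
    rw [this]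
    exact Submodule.add_mem _ (hy _) (hx _)
  | inv x _ hx =>
    have : Rop x⁻¹ v - v = -(Rop x (Rop x⁻¹ v) - Rop x⁻¹ v) := by
      have h1 : Rop x (Rop x⁻¹ v) = v := by
        rw [← Module.End.mul_apply, ← Rop_mul, inv_mul_cancel, Rop_one, Module.End.one_apply]
      rw [h1]; abel
    rw [this]
    exact Submodule.neg_mem _ (hx _)

theorem card_le_finrank_sup {S U : G} (hgen : Subgroup.closure {S, U} = ⊤)
    (hS : ∀ x : X, S ^ 2 • x = x) (hU3 : ∀ x : X, U ^ 3 • x = x)
    [MulAction.IsPretransitive G X] (x₀ : X) :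
    Fintype.card X ≤ finrank ℂ ↥(Kn (X := X) S 2 ⊔ Kn (X := X) U 3) + 1 := by
  set D := Kn (X := X) S 2 ⊔ Kn (X := X) U 3 with hD
  have h1 : ∀ x : X, (Pi.single x (1 : ℂ) : X → ℂ) ∈ D ⊔ Submodule.span ℂ {Pi.single x₀ (1 : ℂ)} := by
    intro x
    obtain ⟨g, hg⟩ := MulAction.exists_smul_eq G x x₀
    have h2 : (Pi.single x (1 : ℂ) : X → ℂ) = Rop g (Pi.single x₀ (1 : ℂ)) := by
      ext z
      rw [Rop_apply]
      by_cases hz : z = x
      · subst hz
        rw [hg]; simp
      · have : g • z ≠ x₀ := by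
          intro h
          apply hz
          rw [← hg] at h
          exact MulAction.injective g h
        rw [Pi.single_eq_of_ne hz, Pi.single_eq_of_ne this]
    have h3 : (Pi.single x (1 : ℂ) : X → ℂ)
        = (Rop g (Pi.single x₀ (1 : ℂ)) - Pi.single x₀ (1 : ℂ)) + Pi.single x₀ (1 : ℂ) := by
      rw [← h2]; abel
    rw [h3]
    exact Submodule.add_mem _ (Submodule.mem_sup_left (Rop_sub_mem_sup hgen hS hU3 g _))
      (Submodule.mem_sup_right (Submodule.mem_span_singleton_self _))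
  have h4 : D ⊔ Submodule.span ℂ {(Pi.single x₀ (1 : ℂ) : X → ℂ)} = ⊤ := by
    rw [eq_top_iff]
    intro v _
    rw [pi_eq_sum_univ v]
    refine Submodule.sum_mem _ fun x _ => ?_
    have : (fun j => if x = j then (1 : ℂ) else 0) = (Pi.single x (1 : ℂ) : X → ℂ) := by
      ext j
      by_cases hj : x = j
      · subst hj; simp
      · rw [if_neg hj, Pi.single_eq_of_ne (Ne.symm hj)]
    rw [this]
    exact Submodule.smul_mem _ _ (h1 x)
  have h5 := Submodule.finrank_add_le_finrank_add_finrank D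
    (Submodule.span ℂ {(Pi.single x₀ (1 : ℂ) : X → ℂ)})
  rw [h4, finrank_top, Module.finrank_fintype_fun_eq_card] at h5
  have h6 : finrank ℂ (Submodule.span ℂ {(Pi.single x₀ (1 : ℂ) : X → ℂ)}) ≤ 1 :=
    (finrank_span_le_card _).trans (by simp)
  omega

/-- general rank–nullity inequality on a submodule -/
theorem finrank_le_of_mapsTo {M V : Type*} [AddCommGroup M] [Module ℂ M] [AddCommGroup V]
    [Module ℂ V] [FiniteDimensional ℂ M] [FiniteDimensional ℂ V]
    (K : Submodule ℂ M) (L : M →ₗ[ℂ] V) (C : Submodule ℂ V) (h : ∀ m ∈ K, L m ∈ C) :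
    finrank ℂ K ≤ finrank ℂ ↥(K ⊓ LinearMap.ker L) + finrank ℂ C := by
  have h1 := LinearMap.finrank_range_add_finrank_ker (L.domRestrict K)
  have h2 : finrank ℂ (LinearMap.range (L.domRestrict K)) ≤ finrank ℂ C := by
    apply Submodule.finrank_mono
    rintro _ ⟨m, rfl⟩
    exact h m.1 m.2
  have h3 : finrank ℂ (LinearMap.ker (L.domRestrict K)) ≤ finrank ℂ ↥(K ⊓ LinearMap.ker L) := by
    let ι : LinearMap.ker (L.domRestrict K) →ₗ[ℂ] ↥(K ⊓ LinearMap.ker L) :=
      { toFun := fun m => ⟨m.1.1, m.1.2, m.2⟩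
        map_add' := fun _ _ => rfl
        map_smul' := fun _ _ => rfl }
    apply LinearMap.finrank_le_finrank_of_injective (f := ι)
    intro a b hab
    apply Subtype.ext
    apply Subtype.ext
    exact congrArg (fun z : ↥(K ⊓ LinearMap.ker L) => z.1) hab
  omega

/-- The abstract bound. -/
theorem main_bound {W : Type*} [AddCommGroup W] [Module ℂ W]
    (β : W →ₗ[ℂ] (G → X → ℂ)) (hβ : ∀ φ, IsCocycle (β φ))
    {S U T : G} (hUST : U = S * T) (hgen : Subgroup.closure {S, U} = ⊤)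
    {n : ℕ} (hn : 0 < n)
    (hS : ∀ x : X, S ^ 2 • x = x) (hU3 : ∀ x : X, U ^ 3 • x = x) (hT : ∀ x : X, T ^ n • x = x)
    (hβS : ∀ φ, β φ (S ^ 2) = 0) (hβU : ∀ φ, β φ (U ^ 3) = 0) (hβT : ∀ φ, β φ (T ^ n) = 0)
    [MulAction.IsPretransitive G X] (x₀ : X)
    (hinj : ∀ φ v, (∀ g, β φ g + (Rop g v - v) = 0) → φ = 0) :
    Module.Finite ℂ W ∧
      finrank ℂ W + orb (MulAction.toPerm S : Equiv.Perm X) + orb (MulAction.toPerm U : Equiv.Perm X)
        + orb (MulAction.toPerm T : Equiv.Perm X) ≤ Fintype.card X + 2 := by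
  -- the total cocycle
  let c : W × (X → ℂ) → G → X → ℂ := fun p g => β p.1 g + (Rop g p.2 - p.2)
  have hc : ∀ p, IsCocycle (c p) := fun p => (hβ p.1).add (isCocycle_cobdry p.2)
  -- evaluation at a group element is linear
  let ev : G → (W × (X → ℂ)) →ₗ[ℂ] (X → ℂ) := fun g =>
    ((LinearMap.proj g : (G → X → ℂ) →ₗ[ℂ] (X → ℂ)).comp β).comp (LinearMap.fst ℂ W (X → ℂ))
      + ((Rop g : Module.End ℂ (X → ℂ)) - 1).comp (LinearMap.snd ℂ W (X → ℂ))
  have hev : ∀ g p, ev g p = c p g := by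
    intro g p
    simp [ev, c]
  have hzero : ∀ p, c p S = 0 → c p U = 0 → ∀ g, c p g = 0 := by
    intro p h1 h2
    apply (hc p).eq_zero_of_closure hgen
    rintro g (rfl | rfl)
    · exact h1
    · exact h2
  -- finiteness of W
  have hfin : Module.Finite ℂ W := by
    let ι : W →ₗ[ℂ] (X → ℂ) × (X → ℂ) :=
      ((ev S).prod (ev U)).comp (LinearMap.inl ℂ W (X → ℂ))
    apply Module.Finite.of_injective ι
    rw [← LinearMap.ker_eq_bot, LinearMap.ker_eq_bot']
    intro φ hφ
    have h1 : c (φ, 0) S = 0 := by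
      rw [← hev]; exact congrArg Prod.fst hφ
    have h2 : c (φ, 0) U = 0 := by
      rw [← hev]; exact congrArg Prod.snd hφ
    exact hinj φ 0 (hzero (φ, 0) h1 h2)
  refine ⟨hfin, ?_⟩
  have hcS : ∀ p, c p S ∈ Kn (X := X) S 2 := by
    intro p
    apply (hc p).mem_Kn
    show β p.1 (S ^ 2) + (Rop (S ^ 2) p.2 - p.2) = 0
    rw [hβS, Rop_eq_one_of_trivial hS]; simp
  have hcU : ∀ p, c p U ∈ Kn (X := X) U 3 := by
    intro p
    apply (hc p).mem_Kn
    show β p.1 (U ^ 3) + (Rop (U ^ 3) p.2 - p.2) = 0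
    rw [hβU, Rop_eq_one_of_trivial hU3]; simp
  have hcT : ∀ p, c p T ∈ Kn (X := X) T n := by
    intro p
    apply (hc p).mem_Kn
    show β p.1 (T ^ n) + (Rop (T ^ n) p.2 - p.2) = 0
    rw [hβT, Rop_eq_one_of_trivial hT]; simp
  -- step 1
  have s1 := finrank_le_of_mapsTo (⊤ : Submodule ℂ (W × (X → ℂ))) (ev U - ev S) (Kn (X := X) T n)
    (by
      intro p _
      rw [LinearMap.sub_apply, hev, hev]
      have : c p U - c p S = c p T + (Rop T (c p S) - c p S) := by
        rw [hUST, hc p S T]; abel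
      rw [this]
      exact Submodule.add_mem _ (hcT p) (Rop_sub_mem_Kn hT _))
  -- step 2
  have s2 := finrank_le_of_mapsTo (⊤ ⊓ LinearMap.ker (ev U - ev S)) (ev S)
    (Kn (X := X) S 2 ⊓ Kn (X := X) U 3)
    (by
      rintro p ⟨_, hp⟩
      have hp' : ev U p - ev S p = 0 := hp
      rw [sub_eq_zero] at hp'
      refine ⟨?_, ?_⟩
      · rw [hev]; exact hcS p
      · rw [← hp', hev]; exact hcU p)
  -- step 3
  have s3 : finrank ℂ ↥((⊤ ⊓ LinearMap.ker (ev U - ev S)) ⊓ LinearMap.ker (ev S)) ≤ 1 := by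
    have hle : ((⊤ ⊓ LinearMap.ker (ev U - ev S)) ⊓ LinearMap.ker (ev S))
        ≤ Submodule.span ℂ {((0 : W), (fun _ => (1 : ℂ) : X → ℂ))} := by
      rintro p ⟨⟨_, hp⟩, hp2⟩
      have hp' : ev U p - ev S p = 0 := hp
      have hp2' : ev S p = 0 := hp2
      rw [hp2', sub_zero] at hp'
      rw [hev] at hp' hp2'
      have hz := hzero p hp2' hp'
      have hφ : p.1 = 0 := hinj p.1 p.2 hz
      have hv : ∀ g : G, Rop g p.2 = p.2 := by
        intro g
        have := hz g
        simp only [c, hφ, map_zero, Pi.zero_apply, zero_add] at this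
        exact sub_eq_zero.mp this
      rw [Submodule.mem_span_singleton]
      refine ⟨p.2 x₀, ?_⟩
      ext x
      · simp [hφ]
      · obtain ⟨g, hg⟩ := MulAction.exists_smul_eq G x x₀
        have := congrFun (hv g) x
        rw [Rop_apply, hg] at this
        simp [this]
    exact (Submodule.finrank_mono hle).trans ((finrank_span_le_card _).trans (by simp))
  have s4 := card_le_finrank_sup hgen hS hU3 x₀
  have s5 := Submodule.finrank_sup_add_finrank_inf_eq (Kn (X := X) S 2) (Kn (X := X) U 3)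
  have s6 := finrank_Kn_add_orb_le (X := X) S 2 (by norm_num)
  have s7 := finrank_Kn_add_orb_le (X := X) U 3 (by norm_num)
  have s8 := finrank_Kn_add_orb_le (X := X) T n hn
  rw [finrank_top, Module.finrank_prod, Module.finrank_fintype_fun_eq_card] at s1
  omega

end

end Fermat.Agent.S21Aux
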