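import Mathlib

/-!
# A vector valued maximum modulus principle on `SL(2,ℤ) \ ℍ`
-/

set_option autoImplicit false

open UpperHalfPlane hiding I
open Complex Filter Topology Function
open scoped Manifold Real MatrixGroups

namespace Fermat.Agent.S21Aux

local notation "𝕢" => Periodic.qParam

theorem const_of_invariant_norm {ι : Type*} [Fintype ι] (G : ι → ℍ → ℂ) {h : ℝ} (hh : 0 < h)
    (hper : ∀ i, Periodic (G i ∘ ofComplex) h) (hhol : ∀ i, MDiff (G i))
    (hbdd : ∀ i, IsBoundedAtImInfty (G i))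
    (hinv : ∀ (γ : SL(2, ℤ)) (z : ℍ), ∑ i, ‖G i (γ • z)‖ ^ 2 = ∑ i, ‖G i z‖ ^ 2)
    (i : ι) (z w : ℍ) : G i z = G i w := by
  set f : ℂ → EuclideanSpace ℂ ι := fun q => WithLp.toLp 2 (fun i => cuspFunction h (G i) q)
    with hf
  have hfi : ∀ q i, f q i = cuspFunction h (G i) q := fun q i => rfl
  have hfz : ∀ (z : ℍ) i, f (𝕢 h z) i = G i z := fun z i => by
    rw [hfi, eq_cuspFunction z hh.ne' (hper i)]
  have hnorm : ∀ z : ℍ, ‖f (𝕢 h z)‖ ^ 2 = ∑ i, ‖G i z‖ ^ 2 := fun z => by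
    rw [EuclideanSpace.norm_sq_eq]
    simp only [hfz]
  have hd : DifferentiableOn ℂ f (Metric.ball 0 1) := by
    rw [differentiableOn_euclidean]
    intro i
    exact differentiableOn_cuspFunction_ball hh (hper i) (hhol i) (hbdd i)
  have hr1 : Real.exp (-π / h) < 1 := by
    rw [Real.exp_lt_one_iff]
    exact div_neg_of_neg_of_pos (by linarith [Real.pi_pos]) hh
  have key := Complex.eq_const_of_exists_le hd (Real.exp_nonneg (-π / h)) hr1 (fun q hq => by
    rcases eq_or_ne q 0 with rfl | hq'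
    · exact ⟨0, by simpa using Real.exp_nonneg _, le_rfl⟩
    · set τ : ℍ := ⟨Periodic.invQParam h q,
        Periodic.im_invQParam_pos_of_norm_lt_one hh (mem_ball_zero_iff.mp hq) hq'⟩ with hτ
      have hqτ : 𝕢 h τ = q := Periodic.qParam_right_inv hh.ne' hq'
      obtain ⟨γ, hγ⟩ := ModularGroup.exists_one_half_le_im_smul τ
      refine ⟨𝕢 h (γ • τ : ℍ), ?_, ?_⟩
      · rw [mem_closedBall_zero_iff, Periodic.norm_qParam, Real.exp_le_exp]
        have h1 : (1 : ℝ) / 2 ≤ ((γ • τ : ℍ) : ℂ).im := hγ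
        rw [div_le_div_iff_of_pos_right hh]
        nlinarith [Real.pi_pos]
      · have h1 : ‖f q‖ ^ 2 = ‖f (𝕢 h (γ • τ : ℍ))‖ ^ 2 := by
          rw [← hqτ, hnorm, hnorm, hinv]
        exact le_of_eq ((sq_eq_sq₀ (norm_nonneg _) (norm_nonneg _)).mp h1))
  have hball : ∀ z : ℍ, 𝕢 h z ∈ Metric.ball (0 : ℂ) 1 := fun z => by
    rw [mem_ball_zero_iff]
    exact Periodic.norm_qParam_lt_one hh z.im_pos
  rw [← hfz z i, ← hfz w i, key (hball z), key (hball w)]
  rfl

end Fermat.Agent.S21Aux
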