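import Mathlib

/-!
# Primitives of periodic holomorphic functions vanishing at `i∞`
-/

set_option autoImplicit false

open UpperHalfPlane hiding I
open Complex Filter Topology Function
open scoped Manifold Real

namespace Fermat.Agent.S21Aux

local notation "𝕢" => Periodic.qParam

theorem hasDerivAt_qParam (h : ℝ) (z : ℂ) :
    HasDerivAt (𝕢 h) (2 * π * I / h * 𝕢 h z) z := by
  unfold Periodic.qParam
  have h1 : HasDerivAt (fun z : ℂ => 2 * π * I * z / h) (2 * π * I / h) z := by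
    have := ((hasDerivAt_id z).const_mul (2 * π * I)).div_const (h : ℂ)
    simpa using this
  exact h1.cexp.congr_deriv (mul_comm _ _)

/-- A holomorphic `h`-periodic function on `ℍ` vanishing at `i∞` has a primitive tending to `0`
at `i∞`. -/
theorem exists_prim_tendsto_zero {φ : ℍ → ℂ} {h : ℝ} (hh : 0 < h)
    (hper : Periodic (φ ∘ ofComplex) h) (hhol : MDiff φ) (hzero : IsZeroAtImInfty φ) :
    ∃ F : ℍ → ℂ, (∀ τ : ℍ, HasDerivAt (F ∘ ofComplex) (φ τ) ↑τ) ∧ Tendsto F atImInfty (𝓝 0) := by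
  have hbdd : IsBoundedAtImInfty φ := hzero.boundedAtFilter
  set c := cuspFunction h φ with hc
  have hcd : DifferentiableOn ℂ c (Metric.ball 0 1) :=
    differentiableOn_cuspFunction_ball hh hper hhol hbdd
  have hc0 : c 0 = 0 := hzero.cuspFunction_apply_zero hh
  have hnhds : Metric.ball (0 : ℂ) 1 ∈ 𝓝 (0 : ℂ) := Metric.ball_mem_nhds _ one_pos
  have hds : DifferentiableOn ℂ (dslope c 0) (Metric.ball 0 1) :=
    (Complex.differentiableOn_dslope hnhds).mpr hcd
  have hh' : (h : ℂ) ≠ 0 := by exact_mod_cast hh.ne'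
  have hg : DifferentiableOn ℂ (fun q => (h / (2 * π * I)) * dslope c 0 q) (Metric.ball 0 1) :=
    hds.const_mul _
  obtain ⟨P, hP0, hP⟩ := (hg.isExactOn_ball).with_val_at 0 0
  refine ⟨fun τ => P (𝕢 h τ), fun τ => ?_, ?_⟩
  · have hq : 𝕢 h τ ∈ Metric.ball (0 : ℂ) 1 := by
      rw [mem_ball_zero_iff]
      exact Periodic.norm_qParam_lt_one hh τ.im_pos
    have h1 := (hP _ hq).comp (τ : ℂ) (hasDerivAt_qParam h τ)
    have hev : ((fun τ : ℍ => P (𝕢 h τ)) ∘ ofComplex) =ᶠ[𝓝 (τ : ℂ)] (P ∘ 𝕢 h) := by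
      have hopen : IsOpen {z : ℂ | 0 < z.im} := isOpen_lt continuous_const Complex.continuous_im
      filter_upwards [hopen.mem_nhds τ.2] with z hz
      simp only [Function.comp_apply]
      rw [ofComplex_apply_of_im_pos hz]
    refine (h1.congr_of_eventuallyEq hev).congr_deriv ?_
    have h2 : (𝕢 h τ - 0) • dslope c 0 (𝕢 h τ) = c (𝕢 h τ) - c 0 := sub_smul_dslope c 0 _
    rw [hc0, sub_zero, sub_zero, smul_eq_mul, hc, eq_cuspFunction τ hh.ne' hper] at h2
    rw [← h2]
    have hpi : (2 * π * I : ℂ) ≠ 0 := by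
      simp [Real.pi_ne_zero]
    field_simp
    rw [hc, mul_comm]
  · have hcont : ContinuousAt P 0 :=
      (hP 0 (Metric.mem_ball_self one_pos)).continuousAt
    have := hcont.tendsto.comp (qParam_tendsto_atImInfty hh)
    rw [hP0] at this
    exact this

/-- Two primitives on `ℍ` of the same function differ by a constant. -/
theorem prim_sub_const {F G : ℍ → ℂ} {φ : ℍ → ℂ}
    (hF : ∀ τ : ℍ, HasDerivAt (F ∘ ofComplex) (φ τ) ↑τ)
    (hG : ∀ τ : ℍ, HasDerivAt (G ∘ ofComplex) (φ τ) ↑τ) (τ τ' : ℍ) :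
    F τ - G τ = F τ' - G τ' := by
  have hconv : Convex ℝ {z : ℂ | 0 < z.im} := convex_halfSpace_im_gt 0
  have hopen : IsOpen {z : ℂ | 0 < z.im} := isOpen_lt continuous_const Complex.continuous_im
  have hd : ∀ z : ℂ, 0 < z.im →
      HasDerivAt (fun z => (F ∘ ofComplex) z - (G ∘ ofComplex) z) 0 z := by
    intro z hz
    have := (hF ⟨z, hz⟩).fun_sub (hG ⟨z, hz⟩)
    rw [sub_self] at this
    exact this
  have := IsOpen.is_const_of_deriv_eq_zero hopen hconv.isPreconnected
    (fun z hz => (hd z hz).differentiableAt.differentiableWithinAt)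
    (fun z hz => (hd z hz).deriv) τ.2 τ'.2
  simpa using this

end Fermat.Agent.S21Aux
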