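import Mathlib
import Fermat.Prelude.Def_ModularCurve_PeriodHomPair
import Fermat.Prelude.Thm_Subgroup_IsArithmetic_exists_nat_mem_strictPeriods_conj
import Fermat.Agent.S21.Prim

/-!
# Existence and uniqueness of the equivariant primitive of a weight 2 cusp form
-/

set_option autoImplicit false

open UpperHalfPlane hiding I
open Complex Filter Topology Function CongruenceSubgroup ModularCurve ModularCurve.Period
open Matrix.SpecialLinearGroup
open scoped Manifold Real MatrixGroups ModularForm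

namespace Fermat.Agent.S21Aux

/-- Chain rule for Möbius transformations. -/
theorem hasDerivAt_comp_smul {F φ : ℍ → ℂ}
    (hF : ∀ τ : ℍ, HasDerivAt (F ∘ ofComplex) (φ τ) ↑τ) (δ : SL(2, ℤ)) (τ : ℍ) :
    HasDerivAt ((fun w : ℍ => F (δ • w)) ∘ ofComplex) ((φ ∣[(2 : ℤ)] δ) τ) ↑τ := by
  set g : GL (Fin 2) ℝ := mapGL ℝ δ with hg
  have hdet : (g : Matrix (Fin 2) (Fin 2) ℝ).det = 1 := by
    have : g.det.val = 1 := by simp [hg]
    rwa [Matrix.GeneralLinearGroup.val_det_apply] at this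
  have hg' : 0 < (g : Matrix (Fin 2) (Fin 2) ℝ).det := by rw [hdet]; exact one_pos
  have h0 := hF (g • τ)
  have hτ : ((g • τ : ℍ) : ℂ) = ((g • ofComplex (τ : ℂ) : ℍ) : ℂ) := by rw [ofComplex_apply]
  rw [hτ] at h0
  have h1 := h0.comp (τ : ℂ) (hasStrictDerivAt_smul hg' τ).hasDerivAt
  have h2 : ((F ∘ ofComplex) ∘ fun z : ℂ => ((g • ofComplex z : ℍ) : ℂ)) =
      ((fun w : ℍ => F (δ • w)) ∘ ofComplex) := by
    funext z
    simp only [Function.comp_apply, ofComplex_apply]
    rfl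
  rw [h2] at h1
  refine h1.congr_deriv ?_
  rw [ModularForm.SL_slash_apply, hdet]
  have hd : denom g τ ≠ 0 := denom_ne_zero g τ
  rw [show (-(2 : ℤ)) = -((2 : ℕ) : ℤ) by norm_num, zpow_neg, zpow_natCast]
  simp only [ofReal_one, one_div]
  rfl

variable {N : ℕ} [NeZero N]

theorem slash_periodic (f : CuspForm (Gamma0 N) 2) :
    ∃ M : ℕ, 0 < M ∧ ∀ δ : SL(2, ℤ), Periodic ((⇑f ∣[(2 : ℤ)] δ) ∘ ofComplex) (M : ℝ) := by
  obtain ⟨M, hM0, hM⟩ := Subgroup.IsArithmetic.exists_nat_mem_strictPeriods_conj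
    (Gamma0 N : Subgroup (GL (Fin 2) ℝ))
  refine ⟨M, hM0, fun δ => ?_⟩
  have hper := SlashInvariantFormClass.periodic_comp_ofComplex
    (SlashInvariantForm.translate f (mapGL ℝ δ)) (h := (M : ℝ))
    (by simpa using hM δ⁻¹)
  rw [SlashInvariantForm.coe_translate] at hper
  exact hper

theorem exists_hasEquivariantPrimitive (f : CuspForm (Gamma0 N) 2) :
    ∃ F : ℍ → ℂ, HasEquivariantPrimitive N f F := by
  obtain ⟨M, hM0, hM⟩ := slash_periodic f
  have hM0' : (0 : ℝ) < M := by exact_mod_cast hM0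
  have hf : MDiff f := CuspFormClass.holo f
  have key : ∀ δ : SL(2, ℤ), ∃ F : ℍ → ℂ,
      (∀ τ : ℍ, HasDerivAt (F ∘ ofComplex) ((⇑f ∣[(2 : ℤ)] δ) τ) ↑τ) ∧
        Tendsto F atImInfty (𝓝 0) := fun δ =>
    exists_prim_tendsto_zero hM0' (hM δ) (hf.slash _ _) (CuspFormClass.zero_at_infty_slash f δ)
  obtain ⟨F, hF, hF0⟩ := key 1
  have hF' : ∀ τ : ℍ, HasDerivAt (F ∘ ofComplex) (f τ) ↑τ := by
    intro τ
    have := hF τ
    rwa [SlashAction.slash_one] at this
  refine ⟨F, hF', hF0, ?_, ?_⟩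
  · intro γ
    refine ⟨F ((γ : SL(2, ℤ)) • UpperHalfPlane.I) - F UpperHalfPlane.I, fun z => ?_⟩
    have h1 := hasDerivAt_comp_smul hF' (γ : SL(2, ℤ))
    have hinv : (⇑f ∣[(2 : ℤ)] (γ : SL(2, ℤ))) = ⇑f :=
      SlashInvariantFormClass.slash_action_eq f _ ⟨γ, γ.2, rfl⟩
    rw [hinv] at h1
    exact prim_sub_const h1 hF' z UpperHalfPlane.I
  · intro δ
    obtain ⟨G, hG, hG0⟩ := key δ
    have h1 := hasDerivAt_comp_smul hF' δ
    refine ⟨F (δ • UpperHalfPlane.I) - G UpperHalfPlane.I, ?_⟩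
    have h2 : (fun w : ℍ => F (δ • w)) =
        fun w => G w + (F (δ • UpperHalfPlane.I) - G UpperHalfPlane.I) := by
      funext w
      have := prim_sub_const h1 hG w UpperHalfPlane.I
      linear_combination this
    rw [h2]
    simpa using hG0.add_const (F (δ • UpperHalfPlane.I) - G UpperHalfPlane.I)

omit [NeZero N] in
theorem hasEquivariantPrimitive_unique {f : CuspForm (Gamma0 N) 2} {F G : ℍ → ℂ}
    (hF : HasEquivariantPrimitive N f F) (hG : HasEquivariantPrimitive N f G) : F = G := by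
  funext τ
  have h1 : ∀ w : ℍ, F w - G w = F τ - G τ := fun w => prim_sub_const hF.1 hG.1 w τ
  have h2 : Tendsto (fun w : ℍ => F w - G w) atImInfty (𝓝 (0 - 0)) := hF.2.1.sub hG.2.1
  have h3 : Tendsto (fun w : ℍ => F w - G w) atImInfty (𝓝 (F τ - G τ)) := by
    simp only [h1]
    exact tendsto_const_nhds
  have := tendsto_nhds_unique h3 h2
  rw [sub_zero] at this
  exact sub_eq_zero.mp this

/-- The canonical primitive. -/
noncomputable def prim (f : CuspForm (Gamma0 N) 2) : ℍ → ℂ :=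
  (exists_hasEquivariantPrimitive f).choose

theorem prim_spec (f : CuspForm (Gamma0 N) 2) : HasEquivariantPrimitive N f (prim f) :=
  (exists_hasEquivariantPrimitive f).choose_spec

theorem periodMap_apply (f : CuspForm (Gamma0 N) 2) (γ : Gamma0 N) (z : ℍ) :
    periodMap N f (Additive.ofMul γ) = prim f ((γ : SL(2, ℤ)) • z) - prim f z := by
  obtain ⟨F₀, h₀, h⟩ := periodMap_def N f (prim_spec f)
  have hF : F₀ = prim f := hasEquivariantPrimitive_unique h₀ (prim_spec f)
  subst hF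
  rw [h, IsEquivariantPrimitive.periodHom_apply, ← h₀.2.2.1.sub_eq_period γ z]

theorem prim_add (f g : CuspForm (Gamma0 N) 2) : prim (f + g) = prim f + prim g := by
  refine hasEquivariantPrimitive_unique (prim_spec (f + g)) ⟨?_, ?_, ?_, ?_⟩
  · intro τ
    exact ((prim_spec f).1 τ).add ((prim_spec g).1 τ)
  · have := (prim_spec f).2.1.add (prim_spec g).2.1
    rw [add_zero] at this
    exact this
  · intro γ
    obtain ⟨c, hc⟩ := (prim_spec f).2.2.1 γ
    obtain ⟨c', hc'⟩ := (prim_spec g).2.2.1 γ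
    refine ⟨c + c', fun z => ?_⟩
    simp only [Pi.add_apply]
    linear_combination hc z + hc' z
  · intro δ
    obtain ⟨L, hL⟩ := (prim_spec f).2.2.2 δ
    obtain ⟨L', hL'⟩ := (prim_spec g).2.2.2 δ
    exact ⟨L + L', hL.add hL'⟩

theorem prim_smul (c : ℂ) (f : CuspForm (Gamma0 N) 2) : prim (c • f) = c • prim f := by
  refine hasEquivariantPrimitive_unique (prim_spec (c • f)) ⟨?_, ?_, ?_, ?_⟩
  · intro τ
    exact ((prim_spec f).1 τ).const_mul c
  · have := (prim_spec f).2.1.const_mul c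
    rw [mul_zero] at this
    exact this
  · intro γ
    obtain ⟨d, hd⟩ := (prim_spec f).2.2.1 γ
    refine ⟨c * d, fun z => ?_⟩
    simp only [Pi.smul_apply, smul_eq_mul]
    linear_combination c * hd z
  · intro δ
    obtain ⟨L, hL⟩ := (prim_spec f).2.2.2 δ
    exact ⟨c * L, hL.const_mul c⟩

/-- The period map as a linear map. -/
noncomputable def periodLin (N : ℕ) [NeZero N] :
    CuspForm (Gamma0 N) 2 →ₗ[ℂ] (Additive (Gamma0 N) →+ ℂ) where
  toFun f := periodMap N f
  map_add' f g := by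
    refine AddMonoidHom.ext fun γ => ?_
    obtain ⟨γ, rfl⟩ := Additive.ofMul.surjective γ
    rw [AddMonoidHom.add_apply, periodMap_apply _ _ UpperHalfPlane.I,
      periodMap_apply _ _ UpperHalfPlane.I, periodMap_apply _ _ UpperHalfPlane.I, prim_add]
    simp only [Pi.add_apply]
    ring
  map_smul' c f := by
    refine AddMonoidHom.ext fun γ => ?_
    obtain ⟨γ, rfl⟩ := Additive.ofMul.surjective γ
    rw [RingHom.id_apply, AddMonoidHom.smul_apply, periodMap_apply _ _ UpperHalfPlane.I,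
      periodMap_apply _ _ UpperHalfPlane.I, prim_smul]
    simp only [Pi.smul_apply, smul_eq_mul]
    ring

theorem periodLin_apply (f : CuspForm (Gamma0 N) 2) : periodLin N f = periodMap N f := rfl

theorem existsPeriodMapLinear : ExistsPeriodMapLinear N := ⟨periodLin N, fun _ => rfl⟩

theorem periodHomPair_eq : periodHomPair N = LinearMap.coprod
    ((LinearMap.id + charInvolution N ℂ ℂ) ∘ₗ periodLin N)
    ((LinearMap.id - charInvolution N ℂ ℂ) ∘ₗ periodLin N) := by
  obtain ⟨pml, hpml, h⟩ := periodHomPair_def N existsPeriodMapLinear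
  have : pml = periodLin N := LinearMap.ext fun f => hpml f
  rw [h, this]

end Fermat.Agent.S21Aux
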