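import Mathlib
import Fermat.Agent.S21.Exists

/-!
# Period homomorphisms are parabolic
-/

set_option autoImplicit false

open UpperHalfPlane hiding I
open Complex Filter Topology Function CongruenceSubgroup ModularCurve ModularCurve.Period
open Matrix.SpecialLinearGroup
open scoped Manifold Real MatrixGroups ModularForm

namespace Fermat.Agent.S21Aux

theorem exists_fixed_vector (a b c d : ℤ) (hdet : a * d - b * c = 1) (htr : (a + d) ^ 2 = 4) :
    ∃ p q e : ℤ, IsCoprime p q ∧ a * p + b * q = e * p ∧ c * p + d * q = e * q := by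
  obtain ⟨e, he, hee⟩ : ∃ e : ℤ, a + d = 2 * e ∧ e * e = 1 := by
    have h : (a + d - 2) * (a + d + 2) = 0 := by linear_combination htr
    rcases mul_eq_zero.mp h with h | h
    · exact ⟨1, by linarith, by norm_num⟩
    · exact ⟨-1, by linarith, by norm_num⟩
  by_cases hc : c = 0
  · subst hc
    refine ⟨1, 0, e, isCoprime_one_left, ?_, by ring⟩
    have h1 : (a - e) * (a - e) = 0 := by
      have hd : d = 2 * e - a := by linarith
      subst hd
      linear_combination -hdet + hee
    have := mul_self_eq_zero.mp h1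
    linarith
  · set g : ℤ := (Int.gcd (a - e) c : ℤ) with hg
    have hg0 : g ≠ 0 := by
      rw [hg]
      exact_mod_cast (Int.gcd_pos_of_ne_zero_right _ hc).ne'
    obtain ⟨p, hp⟩ : g ∣ a - e := Int.gcd_dvd_left _ _
    obtain ⟨q, hq⟩ : g ∣ c := Int.gcd_dvd_right _ _
    refine ⟨p, q, e, ?_, ?_, ?_⟩
    · obtain ⟨u, v, huv⟩ : ∃ u v : ℤ, g = (a - e) * u + c * v := ⟨_, _, Int.gcd_eq_gcd_ab _ _⟩
      refine ⟨u, v, ?_⟩
      apply mul_left_cancel₀ hg0
      calc g * (u * p + v * q) = (g * p) * u + (g * q) * v := by ring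
        _ = (a - e) * u + c * v := by rw [← hp, ← hq]
        _ = g * 1 := by rw [← huv, mul_one]
    · apply mul_left_cancel₀ hg0
      calc g * (a * p + b * q) = a * (g * p) + b * (g * q) := by ring
        _ = a * (a - e) + b * c := by rw [← hp, ← hq]
        _ = e * (a - e) := by
          have hd : d = 2 * e - a := by linarith
          subst hd
          linear_combination -hdet + hee
        _ = g * (e * p) := by rw [hp]; ring
    · apply mul_left_cancel₀ hg0
      calc g * (c * p + d * q) = c * (g * p) + d * (g * q) := by ring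
        _ = c * (a - e) + d * c := by rw [← hp, ← hq]
        _ = e * c := by
          have hd : d = 2 * e - a := by linarith
          subst hd
          ring
        _ = g * (e * q) := by rw [hq]; ring

theorem exists_conj_T_zpow (γ : SL(2, ℤ))
    (h : (γ : Matrix (Fin 2) (Fin 2) ℤ).trace ^ 2 = 4) :
    ∃ (δ : SL(2, ℤ)) (n : ℤ), ∀ w : ℍ, γ • (δ • w) = δ • (ModularGroup.T ^ n • w) := by
  have hdet : γ 0 0 * γ 1 1 - γ 0 1 * γ 1 0 = 1 := by
    have := γ.det_coe
    rwa [Matrix.det_fin_two] at this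
  rw [Matrix.trace_fin_two] at h
  obtain ⟨p, q, e, hpq, h1, h2⟩ := exists_fixed_vector _ _ _ _ hdet h
  obtain ⟨δ, hδ0, hδ1⟩ := hpq.exists_SL2_col 0
  have hM : (δ⁻¹ * γ * δ) 1 0 = 0 := by
    rw [SL2_inv_expl]
    simp only [Matrix.SpecialLinearGroup.coe_mul, Matrix.mul_apply, Fin.sum_univ_two,
      Matrix.cons_val_zero, Matrix.cons_val_one, Matrix.cons_val']
    simp only [hδ0, hδ1]
    linear_combination (-q) * h1 + p * h2
  obtain ⟨n, hn⟩ := ModularGroup.exists_eq_T_zpow_of_c_eq_zero hM
  refine ⟨δ, n, fun w => ?_⟩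
  rw [← hn w, ← mul_smul, ← mul_smul]
  congr 1
  group

variable {N : ℕ} [NeZero N]

theorem periodMap_mem_parabolicHoms (f : CuspForm (Gamma0 N) 2) :
    periodMap N f ∈ parabolicHoms ℂ (Gamma0 N) ℂ := by
  rw [mem_parabolicHoms_iff]
  intro γ hγ
  obtain ⟨δ, n, hδ⟩ := exists_conj_T_zpow (γ : SL(2, ℤ)) hγ
  obtain ⟨L, hL⟩ := (prim_spec f).2.2.2 δ
  have h1 : ∀ w : ℍ, periodMap N f (Additive.ofMul γ) =
      prim f (δ • (ModularGroup.T ^ n • w)) - prim f (δ • w) := by
    intro w
    rw [periodMap_apply f γ (δ • w), hδ]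
  have hT : Tendsto (fun w : ℍ => ModularGroup.T ^ n • w) atImInfty atImInfty := by
    rw [atImInfty, tendsto_comap_iff]
    have : (UpperHalfPlane.im ∘ fun w : ℍ => ModularGroup.T ^ n • w) = UpperHalfPlane.im := by
      funext w
      exact ModularGroup.im_T_zpow_smul w n
    rw [this]
    exact tendsto_comap
  have h2 : Tendsto (fun w : ℍ => prim f (δ • (ModularGroup.T ^ n • w)) - prim f (δ • w))
      atImInfty (𝓝 (L - L)) := (hL.comp hT).sub hL
  have h3 : Tendsto (fun w : ℍ => prim f (δ • (ModularGroup.T ^ n • w)) - prim f (δ • w))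
      atImInfty (𝓝 (periodMap N f (Additive.ofMul γ))) := by
    simp only [← h1]
    exact tendsto_const_nhds
  have := tendsto_nhds_unique h3 h2
  rwa [sub_self] at this

theorem range_periodHomPair_le :
    LinearMap.range (periodHomPair N) ≤ parabolicHoms ℂ (Gamma0 N) ℂ := by
  rintro _ ⟨⟨f, g⟩, rfl⟩
  rw [periodHomPair_eq]
  simp only [LinearMap.coprod_apply, LinearMap.comp_apply, LinearMap.add_apply,
    LinearMap.sub_apply, LinearMap.id_apply, periodLin_apply]
  have hf := periodMap_mem_parabolicHoms f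
  have hg := periodMap_mem_parabolicHoms g
  exact Submodule.add_mem _
    (Submodule.add_mem _ hf (charInvolution_mem_parabolicHoms N ℂ ℂ hf))
    (Submodule.sub_mem _ hg (charInvolution_mem_parabolicHoms N ℂ ℂ hg))

end Fermat.Agent.S21Aux
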