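import Mathlib
import Fermat.Agent.S21.Parabolic
import Fermat.Agent.S21.MaxMod

/-!
# Rigidity: a holomorphic quasi-invariant function with purely imaginary periods is constant
-/

set_option autoImplicit false

open UpperHalfPlane hiding I
open Complex Filter Topology Function CongruenceSubgroup ModularCurve ModularCurve.Period
open Matrix.SpecialLinearGroup
open scoped Manifold Real MatrixGroups ModularForm

namespace Fermat.Agent.S21Aux

/-- `H` is a primitive of `φ`, changes by constants under `Γ₀(N)` and has limits at all cusps. -/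
structure IsQuasiInv (N : ℕ) (H φ : ℍ → ℂ) : Prop where
  deriv : ∀ τ : ℍ, HasDerivAt (H ∘ ofComplex) (φ τ) ↑τ
  equiv : ∀ γ : Gamma0 N, ∃ c : ℂ, ∀ z : ℍ, H ((γ : SL(2, ℤ)) • z) - H z = c
  lim : ∀ δ : SL(2, ℤ), ∃ L : ℂ, Tendsto (fun w : ℍ => H (δ • w)) atImInfty (𝓝 L)

namespace IsQuasiInv

variable {N : ℕ} {H H' φ φ' : ℍ → ℂ}

theorem add (h : IsQuasiInv N H φ) (h' : IsQuasiInv N H' φ') :
    IsQuasiInv N (H + H') (φ + φ') where
  deriv τ := (h.deriv τ).add (h'.deriv τ)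
  equiv γ := by
    obtain ⟨c, hc⟩ := h.equiv γ
    obtain ⟨c', hc'⟩ := h'.equiv γ
    refine ⟨c + c', fun z => ?_⟩
    simp only [Pi.add_apply]
    linear_combination hc z + hc' z
  lim δ := by
    obtain ⟨L, hL⟩ := h.lim δ
    obtain ⟨L', hL'⟩ := h'.lim δ
    exact ⟨L + L', hL.add hL'⟩

theorem smul (c : ℂ) (h : IsQuasiInv N H φ) : IsQuasiInv N (c • H) (c • φ) where
  deriv τ := (h.deriv τ).const_mul c
  equiv γ := by
    obtain ⟨d, hd⟩ := h.equiv γ
    refine ⟨c * d, fun z => ?_⟩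
    simp only [Pi.smul_apply, smul_eq_mul]
    linear_combination c * hd z
  lim δ := by
    obtain ⟨L, hL⟩ := h.lim δ
    exact ⟨c * L, hL.const_mul c⟩

theorem eq_of_parabolic (h : IsQuasiInv N H φ) (γ : Gamma0 N)
    (hγ : ((γ : SL(2, ℤ)) : Matrix (Fin 2) (Fin 2) ℤ).trace ^ 2 = 4) (z : ℍ) :
    H ((γ : SL(2, ℤ)) • z) = H z := by
  obtain ⟨c, hc⟩ := h.equiv γ
  obtain ⟨δ, n, hδ⟩ := exists_conj_T_zpow (γ : SL(2, ℤ)) hγ
  obtain ⟨L, hL⟩ := h.lim δ
  have h1 : ∀ w : ℍ, c = H (δ • (ModularGroup.T ^ n • w)) - H (δ • w) := by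
    intro w
    rw [← hc (δ • w), hδ]
  have hT : Tendsto (fun w : ℍ => ModularGroup.T ^ n • w) atImInfty atImInfty := by
    rw [atImInfty, tendsto_comap_iff]
    have : (UpperHalfPlane.im ∘ fun w : ℍ => ModularGroup.T ^ n • w) = UpperHalfPlane.im := by
      funext w
      exact ModularGroup.im_T_zpow_smul w n
    rw [this]
    exact tendsto_comap
  have h2 : Tendsto (fun w : ℍ => H (δ • (ModularGroup.T ^ n • w)) - H (δ • w))
      atImInfty (𝓝 (L - L)) := (hL.comp hT).sub hL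
  have h3 : Tendsto (fun w : ℍ => H (δ • (ModularGroup.T ^ n • w)) - H (δ • w))
      atImInfty (𝓝 c) := by
    simp only [← h1]
    exact tendsto_const_nhds
  have := tendsto_nhds_unique h3 h2
  rw [sub_self] at this
  have h4 := hc z
  rw [this] at h4
  exact sub_eq_zero.mp h4

end IsQuasiInv

theorem conj_T_pow_mem_Gamma0 (N : ℕ) (δ : SL(2, ℤ)) :
    δ * ModularGroup.T ^ (N : ℤ) * δ⁻¹ ∈ Gamma0 N := by
  rw [Gamma0_mem, SL2_inv_expl]
  simp only [Matrix.SpecialLinearGroup.coe_mul, Matrix.mul_apply, Fin.sum_univ_two,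
    Matrix.cons_val_zero, Matrix.cons_val_one, Matrix.cons_val', ModularGroup.coe_T_zpow,
    Matrix.of_apply]
  push_cast
  simp
  ring

theorem conj_T_pow_trace (N : ℕ) (δ : SL(2, ℤ)) :
    ((δ * ModularGroup.T ^ (N : ℤ) * δ⁻¹ : SL(2, ℤ)) : Matrix (Fin 2) (Fin 2) ℤ).trace ^ 2
      = 4 := by
  have : ((δ * ModularGroup.T ^ (N : ℤ) * δ⁻¹ : SL(2, ℤ)) : Matrix (Fin 2) (Fin 2) ℤ).trace
      = 2 := by
    rw [Matrix.SpecialLinearGroup.coe_mul, Matrix.trace_mul_comm, ← Matrix.SpecialLinearGroup.coe_mul,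
      inv_mul_cancel_left, ModularGroup.coe_T_zpow, Matrix.trace_fin_two_of]
    norm_num
  rw [this]
  norm_num

theorem periodic_of_T_zpow {g : ℍ → ℂ} {n : ℕ} (hg : ∀ w : ℍ, g (ModularGroup.T ^ (n : ℤ) • w) = g w) :
    Periodic (g ∘ ofComplex) ((n : ℝ) : ℂ) := by
  intro w
  by_cases hw : 0 < w.im
  · have hw' : 0 < (w + ((n : ℝ) : ℂ)).im := by simpa using hw
    simp only [Function.comp_apply, ofComplex_apply_of_im_pos hw', ofComplex_apply_of_im_pos hw]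
    rw [← hg ⟨w, hw⟩]
    congr 1
    ext
    rw [ModularGroup.coe_T_zpow_smul_eq]
    simp
  · have hw' : (w + ((n : ℝ) : ℂ)).im ≤ 0 := by simpa using not_lt.mp hw
    simp only [Function.comp_apply, ofComplex_apply_of_im_nonpos hw',
      ofComplex_apply_of_im_nonpos (not_lt.mp hw)]

theorem IsQuasiInv.rigid {N : ℕ} [NeZero N] {H φ : ℍ → ℂ} (h : IsQuasiInv N H φ)
    (hre : ∀ (γ : Gamma0 N) (z : ℍ), (H ((γ : SL(2, ℤ)) • z)).re = (H z).re) : φ = 0 := by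
  classical
  haveI : Fintype (SL(2, ℤ) ⧸ Gamma0 N) := Fintype.ofFinite _
  set G : (SL(2, ℤ) ⧸ Gamma0 N) → ℍ → ℂ := fun x w => cexp (H ((x.out)⁻¹ • w)) with hG
  have hN : (0 : ℝ) < (N : ℝ) := by exact_mod_cast Nat.pos_of_ne_zero (NeZero.ne N)
  -- real parts only depend on the coset
  have hcoset : ∀ (δ : SL(2, ℤ)) (w : ℍ),
      (H (((δ : SL(2, ℤ) ⧸ Gamma0 N).out)⁻¹ • w)).re = (H (δ⁻¹ • w)).re := by
    intro δ w
    obtain ⟨γ, hγ⟩ := QuotientGroup.mk_out_eq_mul (Gamma0 N) δ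
    rw [hγ, mul_inv_rev, mul_smul]
    exact hre γ⁻¹ (δ⁻¹ • w)
  have hper : ∀ x, Periodic (G x ∘ ofComplex) ((N : ℝ) : ℂ) := by
    intro x
    refine periodic_of_T_zpow fun w => ?_
    simp only [hG]
    congr 1
    have := h.eq_of_parabolic ⟨_, conj_T_pow_mem_Gamma0 N (x.out)⁻¹⟩
      (conj_T_pow_trace N (x.out)⁻¹) ((x.out)⁻¹ • w)
    rw [← this]
    congr 1
    simp only [inv_inv, ← mul_smul]
    congr 1
    group
  have hderiv : ∀ x (τ : ℍ), HasDerivAt (G x ∘ ofComplex)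
      (cexp (H ((x.out)⁻¹ • τ)) * (φ ∣[(2 : ℤ)] (x.out)⁻¹) τ) ↑τ := by
    intro x τ
    have h1 := (hasDerivAt_comp_smul h.deriv (x.out)⁻¹ τ).cexp
    simp only [Function.comp_apply, ofComplex_apply] at h1
    exact h1
  have hhol : ∀ x, MDiff (G x) := by
    intro x
    rw [mdifferentiable_iff]
    intro z hz
    exact (hderiv x ⟨z, hz⟩).differentiableAt.differentiableWithinAt
  have hbdd : ∀ x, IsBoundedAtImInfty (G x) := by
    intro x
    obtain ⟨L, hL⟩ := h.lim (x.out)⁻¹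
    exact ((Complex.continuous_exp.tendsto L).comp hL).isBigO_one ℝ
  have hinv : ∀ (γ : SL(2, ℤ)) (z : ℍ), ∑ x, ‖G x (γ • z)‖ ^ 2 = ∑ x, ‖G x z‖ ^ 2 := by
    intro γ z
    rw [← Equiv.sum_comp (MulAction.toPerm γ⁻¹ : Equiv.Perm (SL(2, ℤ) ⧸ Gamma0 N))
      (fun x => ‖G x z‖ ^ 2)]
    refine Finset.sum_congr rfl fun x _ => ?_
    simp only [hG, Complex.norm_exp, MulAction.toPerm_apply]
    congr 2
    have hx : γ⁻¹ • x = ((γ⁻¹ * x.out : SL(2, ℤ)) : SL(2, ℤ) ⧸ Gamma0 N) := by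
      conv_lhs => rw [← QuotientGroup.out_eq' x]
      rfl
    rw [hx, hcoset, mul_inv_rev, inv_inv, mul_smul]
  have hconst := const_of_invariant_norm G hN hper hhol hbdd hinv
  funext τ
  -- use the trivial coset
  set x₀ : SL(2, ℤ) ⧸ Gamma0 N := ((1 : SL(2, ℤ)) : SL(2, ℤ) ⧸ Gamma0 N) with hx₀
  set τ' : ℍ := x₀.out • τ with hτ'
  have h1 := hderiv x₀ τ'
  have h2 : HasDerivAt (G x₀ ∘ ofComplex) 0 ↑τ' := by
    have hev : (G x₀ ∘ ofComplex) =ᶠ[𝓝 (τ' : ℂ)] fun _ => G x₀ τ' := by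
      filter_upwards with z
      exact hconst x₀ _ _
    exact (hasDerivAt_const (τ' : ℂ) (G x₀ τ')).congr_of_eventuallyEq hev
  have h3 := h1.unique h2
  have h4 : (φ ∣[(2 : ℤ)] (x₀.out)⁻¹) τ' = 0 := by
    rcases mul_eq_zero.mp h3 with h | h
    · exact absurd h (Complex.exp_ne_zero _)
    · exact h
  rw [ModularForm.SL_slash_apply, hτ', inv_smul_smul] at h4
  rcases mul_eq_zero.mp h4 with h | h
  · exact h
  · exact absurd h (zpow_ne_zero _ (denom_ne_zero _ _))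

end Fermat.Agent.S21Aux
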