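import Mathlib
import Fermat.Agent.S21.Rigid

/-!
# Injectivity of `periodHomPair`
-/

set_option autoImplicit false

open UpperHalfPlane hiding I
open Complex Filter Topology Function CongruenceSubgroup ModularCurve ModularCurve.Period
open Matrix.SpecialLinearGroup
open scoped Manifold Real MatrixGroups ModularForm ComplexConjugate

namespace Fermat.Agent.S21Aux

/-- `z ↦ -z̄` on the upper half plane. -/
def nc (z : ℍ) : ℍ := ⟨-conj (z : ℂ), by simpa using z.im_pos⟩

@[simp] theorem coe_nc (z : ℍ) : ((nc z : ℍ) : ℂ) = -conj (z : ℂ) := rfl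

@[simp] theorem nc_nc (z : ℍ) : nc (nc z) = z := by
  ext
  simp

theorem im_nc (z : ℍ) : (nc z).im = z.im := by
  show (-conj (z : ℂ)).im = _
  simp

theorem nc_smul (δ : SL(2, ℤ)) (z : ℍ) : nc (δ • z) = jConjSL δ • nc z := by
  ext
  rw [coe_nc, coe_specialLinearGroup_apply, coe_specialLinearGroup_apply, coe_nc]
  simp only [jConjSL_coe, jConjMat_apply_zero_zero, jConjMat_apply_zero_one,
    jConjMat_apply_one_zero, jConjMat_apply_one_one, map_div₀, map_add, map_mul]
  simp only [algebraMap_int_eq, eq_intCast, Int.cast_neg, map_intCast, ofReal_intCast,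
    Complex.ofReal_neg]
  rw [← neg_div]
  congr 1 <;> ring

theorem tendsto_nc : Tendsto nc atImInfty atImInfty := by
  rw [atImInfty, tendsto_comap_iff]
  have : (UpperHalfPlane.im ∘ nc) = UpperHalfPlane.im := funext im_nc
  rw [this]
  exact tendsto_comap

/-- The reflected function `z ↦ conj (F (-z̄))`. -/
def refl (F : ℍ → ℂ) : ℍ → ℂ := fun z => conj (F (nc z))

theorem IsQuasiInv.refl {N : ℕ} {H φ : ℍ → ℂ} (h : IsQuasiInv N H φ) :
    IsQuasiInv N (refl H) (fun τ => -conj (φ (nc τ))) where
  deriv τ := by
    have h0 := h.deriv (nc τ)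
    have h1 : HasDerivAt (fun u : ℂ => (H ∘ ofComplex) (-u)) (-(φ (nc τ))) (conj (τ : ℂ)) := by
      have h2 : HasDerivAt (fun u : ℂ => -u) (-1) (conj (τ : ℂ)) := (hasDerivAt_id _).neg
      have h3 : HasDerivAt (H ∘ ofComplex) (φ (nc τ)) (-(conj (τ : ℂ))) := h0
      have := h3.comp (conj (τ : ℂ)) h2
      rw [mul_neg_one] at this
      exact this
    have h4 := h1.conj_conj
    rw [Complex.conj_conj, map_neg] at h4
    refine h4.congr_of_eventuallyEq ?_
    have hopen : IsOpen {z : ℂ | 0 < z.im} := isOpen_lt continuous_const Complex.continuous_im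
    filter_upwards [hopen.mem_nhds τ.2] with z hz
    have hz' : 0 < (-conj z).im := by simpa using hz
    simp only [Function.comp_apply, Fermat.Agent.S21Aux.refl]
    rw [ofComplex_apply_of_im_pos hz, ofComplex_apply_of_im_pos hz']
    rfl
  equiv γ := by
    obtain ⟨c, hc⟩ := h.equiv (jConjGamma0 N γ)
    refine ⟨conj c, fun z => ?_⟩
    simp only [Fermat.Agent.S21Aux.refl]
    rw [nc_smul, ← map_sub]
    congr 1
    exact hc (nc z)
  lim δ := by
    obtain ⟨L, hL⟩ := h.lim (jConjSL δ)
    refine ⟨conj L, ?_⟩
    have h1 := (Complex.continuous_conj.tendsto L).comp (hL.comp tendsto_nc)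
    refine h1.congr fun w => ?_
    simp only [Function.comp_apply, Fermat.Agent.S21Aux.refl, nc_smul]

variable {N : ℕ} [NeZero N]

theorem isQuasiInv_prim (f : CuspForm (Gamma0 N) 2) : IsQuasiInv N (prim f) f where
  deriv := (prim_spec f).1
  equiv := (prim_spec f).2.2.1
  lim := (prim_spec f).2.2.2

theorem eq_zero_of_period_relation (u w : CuspForm (Gamma0 N) 2)
    (h : ∀ γ : Gamma0 N, periodMap N u (Additive.ofMul γ)
      + periodMap N w (Additive.ofMul (jConjGamma0 N γ)) = 0) : u = 0 ∧ w = 0 := by
  have hA := isQuasiInv_prim u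
  have hB := (isQuasiInv_prim w).refl
  have hrel : ∀ (γ : Gamma0 N) (z : ℍ),
      (prim u ((γ : SL(2, ℤ)) • z) - prim u z)
        + conj (refl (prim w) ((γ : SL(2, ℤ)) • z) - refl (prim w) z) = 0 := by
    intro γ z
    rw [← h γ, periodMap_apply u γ z, periodMap_apply w (jConjGamma0 N γ) (nc z)]
    simp only [Fermat.Agent.S21Aux.refl, map_sub, Complex.conj_conj, nc_smul, jConjGamma0_coe]
  have h1 := (hA.add hB).rigid (fun γ z => by
    have := congrArg Complex.re (hrel γ z)
    simp only [Complex.add_re, Complex.sub_re, Complex.conj_re, Complex.zero_re] at this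
    simp only [Pi.add_apply, Complex.add_re]
    linarith)
  have h2 := ((hA.smul (-Complex.I)).add (hB.smul Complex.I)).rigid (fun γ z => by
    have := congrArg Complex.im (hrel γ z)
    simp only [Complex.add_im, Complex.sub_im, Complex.conj_im, Complex.zero_im] at this
    simp only [Pi.add_apply, Pi.smul_apply, smul_eq_mul, Complex.add_re, Complex.mul_re,
      Complex.neg_re, Complex.neg_im, Complex.I_re, Complex.I_im]
    linarith)
  have hu : ∀ τ, u τ = 0 := by
    intro τ
    have e1 := congrFun h1 τ
    have e2 := congrFun h2 τ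
    simp only [Pi.add_apply, Pi.smul_apply, smul_eq_mul, Pi.zero_apply] at e1 e2
    have : (2 : ℂ) * u τ = 0 := by
      linear_combination e1 + Complex.I * e2 + (u τ + conj (w (nc τ))) * Complex.I_mul_I
    simpa using this
  have hw : ∀ τ, w τ = 0 := by
    intro τ
    have e1 := congrFun h1 (nc τ)
    simp only [Pi.add_apply, Pi.zero_apply, hu, zero_add, nc_nc, neg_eq_zero] at e1
    simpa using e1
  exact ⟨DFunLike.ext _ _ hu, DFunLike.ext _ _ hw⟩

theorem periodHomPair_injective : Function.Injective (periodHomPair N) := by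
  rw [← LinearMap.ker_eq_bot, LinearMap.ker_eq_bot']
  rintro ⟨f, g⟩ hfg
  rw [periodHomPair_eq] at hfg
  simp only [LinearMap.coprod_apply, LinearMap.comp_apply, LinearMap.add_apply,
    LinearMap.sub_apply, LinearMap.id_apply] at hfg
  have key := eq_zero_of_period_relation (f + g) (f - g) (fun γ => by
    have := DFunLike.congr_fun hfg (Additive.ofMul γ)
    simp only [AddMonoidHom.add_apply, AddMonoidHom.sub_apply, charInvolution_apply,
      toMul_ofMul, AddMonoidHom.zero_apply] at this
    rw [← periodLin_apply, ← periodLin_apply, map_add, map_sub]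
    simp only [AddMonoidHom.add_apply, AddMonoidHom.sub_apply]
    linear_combination this)
  have hf : f = 0 := by
    have : (2 : ℂ) • f = 0 := by
      have := congrArg₂ (· + ·) key.1 key.2
      simp only [add_zero] at this
      rw [two_smul]
      rw [← this]
      abel
    simpa using this
  have hg : g = 0 := by
    have := key.1
    rwa [hf, zero_add] at this
  rw [hf, hg]
  rfl

end Fermat.Agent.S21Aux
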