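import Mathlib
import Fermat.Prelude.Def_ModularCurve_PeriodMap
import Fermat.Agent.S21.Bound

/-!
# The Shapiro map `Hom(Γ, ℂ) → Z¹(G, Fun(G/Γ, ℂ))`
-/

set_option autoImplicit false

open Module Fermat.Agent.DimAux

namespace Fermat.Agent.S21Aux

noncomputable section

section general

variable {G : Type*} [Group G] (Γ : Subgroup G)

/-- the canonical `Γ`-valued cocycle attached to the section `Quotient.out`. -/
def kap (g : G) (x : G ⧸ Γ) : Γ :=
  ⟨((g • x).out)⁻¹ * g * x.out, by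
    rw [mul_assoc, ← QuotientGroup.eq, QuotientGroup.out_eq']
    conv_lhs => rw [← QuotientGroup.out_eq' x]
    rfl⟩

theorem kap_coe (g : G) (x : G ⧸ Γ) : (kap Γ g x : G) = ((g • x).out)⁻¹ * g * x.out := rfl

theorem kap_mul (g h : G) (x : G ⧸ Γ) : kap Γ (g * h) x = kap Γ g (h • x) * kap Γ h x := by
  apply Subtype.ext
  rw [Subgroup.coe_mul, kap_coe, kap_coe, kap_coe, mul_smul]
  group

/-- the Shapiro map -/
def shap : (Additive Γ →+ ℂ) →ₗ[ℂ] (G → G ⧸ Γ → ℂ) where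
  toFun φ := fun g x => φ (Additive.ofMul (kap Γ g x))
  map_add' _ _ := rfl
  map_smul' _ _ := rfl

theorem shap_apply (φ : Additive Γ →+ ℂ) (g : G) (x : G ⧸ Γ) :
    shap Γ φ g x = φ (Additive.ofMul (kap Γ g x)) := rfl

theorem isCocycle_shap [Fintype (G ⧸ Γ)] [DecidableEq (G ⧸ Γ)] (φ : Additive Γ →+ ℂ) :
    IsCocycle (shap Γ φ) := by
  intro g h
  ext x
  rw [Pi.add_apply, Rop_apply, shap_apply, shap_apply, shap_apply, kap_mul, ofMul_mul, map_add]

theorem shap_inj [Fintype (G ⧸ Γ)] [DecidableEq (G ⧸ Γ)] (φ : Additive Γ →+ ℂ) (v : G ⧸ Γ → ℂ)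
    (h : ∀ g, shap Γ φ g + (Rop g v - v) = 0) : φ = 0 := by
  ext γ
  obtain ⟨γ, rfl⟩ := Additive.ofMul.surjective γ
  set x₀ : G ⧸ Γ := QuotientGroup.mk 1 with hx₀
  set r₀ : G := x₀.out with hr₀
  have hr₀mem : r₀ ∈ Γ := by
    have : (QuotientGroup.mk r₀ : G ⧸ Γ) = QuotientGroup.mk 1 := QuotientGroup.out_eq' x₀
    rw [eq_comm, QuotientGroup.eq] at this
    simpa using this
  set g : G := r₀ * γ * r₀⁻¹ with hg
  have hgmem : g ∈ Γ := Γ.mul_mem (Γ.mul_mem hr₀mem γ.2) (Γ.inv_mem hr₀mem)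
  have hgx : g • x₀ = x₀ := by
    show (QuotientGroup.mk (g * 1) : G ⧸ Γ) = QuotientGroup.mk 1
    rw [eq_comm, QuotientGroup.eq]
    simpa using hgmem
  have hk : kap Γ g x₀ = γ := by
    apply Subtype.ext
    rw [kap_coe, hgx, ← hr₀, hg]
    group
  have := congrFun (h g) x₀
  rw [Pi.add_apply, Pi.sub_apply, Rop_apply, hgx, sub_self, add_zero, shap_apply, hk] at this
  exact this

end general

end

end Fermat.Agent.S21Aux
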