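import Mathlib
import Fermat.Prelude.Def_ModularCurve_PeriodMap
import Fermat.Prelude.Def_ModularCurve_GenusNumerics
import Fermat.Agent.S21.Shapiro
import Fermat.Agent.S21.Rigid
import Fermat.Agent.Lib.Dim_Count

/-!
# Upper bound for the dimension of the space of parabolic homomorphisms of `Γ₀(N)`
-/

set_option autoImplicit false

open Module Fermat.Agent.DimAux ModularCurve ModularCurve.Period CongruenceSubgroup
open scoped MatrixGroups

namespace Fermat.Agent.S21Aux

noncomputable section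

theorem trace_conj (a g : SL(2, ℤ)) :
    ((a⁻¹ * g * a : SL(2, ℤ)) : Matrix (Fin 2) (Fin 2) ℤ).trace
      = (g : Matrix (Fin 2) (Fin 2) ℤ).trace := by
  rw [Matrix.SpecialLinearGroup.coe_mul, Matrix.trace_mul_comm, ← Matrix.SpecialLinearGroup.coe_mul]
  congr 2
  group

theorem shap_eq_zero_of_trace (Γ : Subgroup SL(2, ℤ)) {φ : Additive Γ →+ ℂ}
    (hφ : IsParabolicHom Γ φ) {g : SL(2, ℤ)} (hg : ∀ x : SL(2, ℤ) ⧸ Γ, g • x = x)
    (htr : (g : Matrix (Fin 2) (Fin 2) ℤ).trace ^ 2 = 4) : shap Γ φ g = 0 := by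
  ext x
  rw [shap_apply]
  apply hφ
  rw [kap_coe, hg, trace_conj, htr]

theorem S_sq : (ModularGroup.S ^ 2 : SL(2, ℤ)) = -1 := by
  ext i j
  fin_cases i <;> fin_cases j <;> simp [pow_two, ModularGroup.S, Matrix.mul_apply, Fin.sum_univ_two]

theorem ST_cube : ((ModularGroup.S * ModularGroup.T) ^ 3 : SL(2, ℤ)) = -1 := by
  ext i j
  fin_cases i <;> fin_cases j <;>
    simp [pow_succ, ModularGroup.S, ModularGroup.T, Matrix.mul_apply, Fin.sum_univ_two]

theorem closure_S_ST : Subgroup.closure {ModularGroup.S, ModularGroup.S * ModularGroup.T}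
    = (⊤ : Subgroup SL(2, ℤ)) := by
  rw [eq_top_iff, ← SpecialLinearGroup.SL2Z_generators, Subgroup.closure_le]
  rintro g (rfl | rfl)
  · exact Subgroup.subset_closure (by simp)
  · have h1 : ModularGroup.S ∈ Subgroup.closure {ModularGroup.S, ModularGroup.S * ModularGroup.T} :=
      Subgroup.subset_closure (by simp)
    have h2 : ModularGroup.S * ModularGroup.T
        ∈ Subgroup.closure {ModularGroup.S, ModularGroup.S * ModularGroup.T} :=
      Subgroup.subset_closure (by simp)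
    have := Subgroup.mul_mem _ (Subgroup.inv_mem _ h1) h2
    simpa using this

theorem orb_toPerm_eq {G X : Type*} [Group G] [MulAction G X] [Fintype X] [DecidableEq X] (g : G) :
    orb (MulAction.toPerm g : Equiv.Perm X)
      = Nat.card (MulAction.orbitRel.Quotient (Subgroup.zpowers g) X) := by
  have : MulAction.orbitRel (Subgroup.zpowers (MulAction.toPerm g : Equiv.Perm X)) X
      = MulAction.orbitRel (Subgroup.zpowers g) X := by
    ext a b
    rw [MulAction.orbitRel_apply, MulAction.orbitRel_apply]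
    constructor
    · rintro ⟨⟨_, n, rfl⟩, rfl⟩
      refine ⟨⟨g ^ n, n, rfl⟩, ?_⟩
      show g ^ n • b = ((MulAction.toPerm g : Equiv.Perm X) ^ n) b
      rw [← MulAction.toPermHom_apply, ← map_zpow]
      rfl
    · rintro ⟨⟨_, n, rfl⟩, rfl⟩
      refine ⟨⟨(MulAction.toPerm g : Equiv.Perm X) ^ n, n, rfl⟩, ?_⟩
      show ((MulAction.toPerm g : Equiv.Perm X) ^ n) b = g ^ n • b
      rw [← MulAction.toPermHom_apply, ← map_zpow]
      rfl
  unfold orb MulAction.orbitRel.Quotient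
  rw [this]

variable (N : ℕ)

theorem T_pow_smul_X (x : SL(2, ℤ) ⧸ Gamma0 N) : (ModularGroup.T ^ N : SL(2, ℤ)) • x = x := by
  induction x using QuotientGroup.induction_on with
  | H g =>
  show (QuotientGroup.mk (ModularGroup.T ^ N * g) : SL(2, ℤ) ⧸ Gamma0 N) = QuotientGroup.mk g
  rw [eq_comm, QuotientGroup.eq]
  have := conj_T_pow_mem_Gamma0 N g⁻¹
  rw [inv_inv, zpow_natCast, mul_assoc] at this
  exact this

theorem T_pow_trace : ((ModularGroup.T ^ N : SL(2, ℤ)) : Matrix (Fin 2) (Fin 2) ℤ).trace ^ 2 = 4 := by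
  have := conj_T_pow_trace N 1
  rw [inv_one, mul_one, one_mul, zpow_natCast] at this
  exact this

theorem neg_one_trace : ((-1 : SL(2, ℤ)) : Matrix (Fin 2) (Fin 2) ℤ).trace ^ 2 = 4 := by
  simp

theorem parabolicHoms_bound [NeZero N] :
    Module.Finite ℂ (parabolicHoms ℂ (Gamma0 N) ℂ) ∧
      (finrank ℂ (parabolicHoms ℂ (Gamma0 N) ℂ) : ℚ) ≤ 2 * genusFormula N := by
  classical
  have : Fintype (SL(2, ℤ) ⧸ Gamma0 N) := Fintype.ofFinite _
  have hmain := main_bound (G := SL(2, ℤ)) (X := SL(2, ℤ) ⧸ Gamma0 N)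
    (W := parabolicHoms ℂ (Gamma0 N) ℂ)
    ((shap (Gamma0 N)).comp (parabolicHoms ℂ (Gamma0 N) ℂ).subtype)
    (fun φ => isCocycle_shap (Gamma0 N) φ.1)
    (S := ModularGroup.S) (U := ModularGroup.S * ModularGroup.T) (T := ModularGroup.T) rfl
    closure_S_ST (n := N) (Nat.pos_of_ne_zero (NeZero.ne N))
    (fun x => by rw [S_sq]; exact neg_one_smul_X N x)
    (fun x => by rw [ST_cube]; exact neg_one_smul_X N x)
    (T_pow_smul_X N)
    (fun φ => by
      rw [S_sq]
      exact shap_eq_zero_of_trace (Gamma0 N) φ.2 (neg_one_smul_X N) neg_one_trace)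
    (fun φ => by
      rw [ST_cube]
      exact shap_eq_zero_of_trace (Gamma0 N) φ.2 (neg_one_smul_X N) neg_one_trace)
    (fun φ => shap_eq_zero_of_trace (Gamma0 N) φ.2 (T_pow_smul_X N) (T_pow_trace N))
    (QuotientGroup.mk 1)
    (fun φ v h => Subtype.ext (shap_inj (Gamma0 N) φ.1 v h))
  refine ⟨hmain.1, ?_⟩
  have h := hmain.2
  have hS := orb_of_pow_prime (MulAction.toPerm ModularGroup.S : Equiv.Perm (SL(2, ℤ) ⧸ Gamma0 N)) 2
    Nat.prime_two (by
      ext x
      rw [← MulAction.toPermHom_apply, ← map_pow, S_sq]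
      exact neg_one_smul_X N x)
  have hU := orb_of_pow_prime
    (MulAction.toPerm (ModularGroup.S * ModularGroup.T) : Equiv.Perm (SL(2, ℤ) ⧸ Gamma0 N)) 3
    Nat.prime_three (by
      ext x
      rw [← MulAction.toPermHom_apply, ← map_pow, ST_cube]
      exact neg_one_smul_X N x)
  have hT : orb (MulAction.toPerm ModularGroup.T : Equiv.Perm (SL(2, ℤ) ⧸ Gamma0 N))
      = cuspCount N :=
    (orb_toPerm_eq (X := SL(2, ℤ) ⧸ Gamma0 N) ModularGroup.T).trans (card_orbits_T N)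
  have hX : Fintype.card (SL(2, ℤ) ⧸ Gamma0 N) = dedekindPsi N := by
    rw [← Nat.card_eq_fintype_card, card_X]
  have hfS : Fintype.card {x : SL(2, ℤ) ⧸ Gamma0 N //
      (MulAction.toPerm ModularGroup.S : Equiv.Perm (SL(2, ℤ) ⧸ Gamma0 N)) x = x} = nuTwo N := by
    rw [← Nat.card_eq_fintype_card, ← card_fix_S N]
    rfl
  have hfU : Fintype.card {x : SL(2, ℤ) ⧸ Gamma0 N //
      (MulAction.toPerm (ModularGroup.S * ModularGroup.T) :
        Equiv.Perm (SL(2, ℤ) ⧸ Gamma0 N)) x = x} = nuThree N := by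
    rw [← Nat.card_eq_fintype_card, ← card_fix_ST N]
    rfl
  rw [hfS, hX] at hS
  rw [hfU, hX] at hU
  rw [hT, hX] at h
  have h' : ((finrank ℂ (parabolicHoms ℂ (Gamma0 N) ℂ) : ℕ) : ℚ)
      + (orb (MulAction.toPerm ModularGroup.S : Equiv.Perm (SL(2, ℤ) ⧸ Gamma0 N)) : ℚ)
      + (orb (MulAction.toPerm (ModularGroup.S * ModularGroup.T) :
          Equiv.Perm (SL(2, ℤ) ⧸ Gamma0 N)) : ℚ) + (cuspCount N : ℚ) ≤ (dedekindPsi N : ℚ) + 2 := by
    exact_mod_cast h
  have hS' : (2 : ℚ) * (orb (MulAction.toPerm ModularGroup.S :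
      Equiv.Perm (SL(2, ℤ) ⧸ Gamma0 N)) : ℚ) = (dedekindPsi N : ℚ) + (nuTwo N : ℚ) := by
    have : 2 * orb (MulAction.toPerm ModularGroup.S : Equiv.Perm (SL(2, ℤ) ⧸ Gamma0 N))
        = dedekindPsi N + nuTwo N := by simpa using hS
    exact_mod_cast this
  have hU' : (3 : ℚ) * (orb (MulAction.toPerm (ModularGroup.S * ModularGroup.T) :
      Equiv.Perm (SL(2, ℤ) ⧸ Gamma0 N)) : ℚ) = (dedekindPsi N : ℚ) + 2 * (nuThree N : ℚ) := by
    have : 3 * orb (MulAction.toPerm (ModularGroup.S * ModularGroup.T) :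
        Equiv.Perm (SL(2, ℤ) ⧸ Gamma0 N)) = dedekindPsi N + 2 * nuThree N := by simpa using hU
    exact_mod_cast this
  unfold genusFormula
  linarith

end

end Fermat.Agent.S21Aux
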