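import Mathlib
import Fermat.Prelude.Def_ModularCurve_PeriodHomPair
import Fermat.Agent.S21.Inj
import Fermat.Agent.S21.Parabolic
import Fermat.Agent.S21.Upper

/-!
# Eichler–Shimura for `Γ₀(N)`, weight two: consequences of (ES) + (U)
-/

set_option autoImplicit false

open Module ModularCurve ModularCurve.Period CongruenceSubgroup
open scoped MatrixGroups

namespace Fermat.Agent.S21Aux

variable (N : ℕ) [NeZero N]

/-- finite-dimensionality of `S₂(Γ₀(N))`, via the period embedding. -/
theorem finite_cuspForm_two : Module.Finite ℂ (CuspForm (Gamma0 N) 2) := by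
  have := (parabolicHoms_bound N).1
  let ι : (CuspForm (Gamma0 N) 2 × CuspForm (Gamma0 N) 2) →ₗ[ℂ] parabolicHoms ℂ (Gamma0 N) ℂ :=
    (periodHomPair N).codRestrict _ (fun p => range_periodHomPair_le ⟨p, rfl⟩)
  have hι : Function.Injective ι := by
    intro a b hab
    exact periodHomPair_injective (congrArg Subtype.val hab)
  have : Module.Finite ℂ (CuspForm (Gamma0 N) 2 × CuspForm (Gamma0 N) 2) :=
    Module.Finite.of_injective ι hι
  exact Module.Finite.of_injective (LinearMap.inl ℂ (CuspForm (Gamma0 N) 2) (CuspForm (Gamma0 N) 2))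
    LinearMap.inl_injective

/-- `2 dim S₂(Γ₀(N)) = dim range(periodHomPair) ≤ dim parabolicHoms`. -/
theorem finrank_range_periodHomPair :
    finrank ℂ (LinearMap.range (periodHomPair N)) = 2 * finrank ℂ (CuspForm (Gamma0 N) 2) := by
  have := finite_cuspForm_two N
  rw [LinearMap.finrank_range_of_inj (periodHomPair_injective (N := N)), Module.finrank_prod, two_mul]

/-- the upper bound half of the dimension formula. -/
theorem finrank_cuspForm_two_le :
    (finrank ℂ (CuspForm (Gamma0 N) 2) : ℚ) ≤ genusFormula N := by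
  have := (parabolicHoms_bound N).1
  have h1 : finrank ℂ (LinearMap.range (periodHomPair N))
      ≤ finrank ℂ (parabolicHoms ℂ (Gamma0 N) ℂ) :=
    Submodule.finrank_mono range_periodHomPair_le
  rw [finrank_range_periodHomPair] at h1
  have h2 := (parabolicHoms_bound N).2
  have h3 : (2 : ℚ) * (finrank ℂ (CuspForm (Gamma0 N) 2) : ℚ)
      ≤ (finrank ℂ (parabolicHoms ℂ (Gamma0 N) ℂ) : ℚ) := by exact_mod_cast h1
  linarith

/-- Eichler–Shimura, given the lower bound half of the dimension formula. -/
theorem eichlerShimura_of_le (h : genusFormula N ≤ (finrank ℂ (CuspForm (Gamma0 N) 2) : ℚ)) :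
    Function.Injective (periodHomPair N)
      ∧ LinearMap.range (periodHomPair N) = parabolicHoms ℂ (Gamma0 N) ℂ := by
  refine ⟨periodHomPair_injective, ?_⟩
  have := (parabolicHoms_bound N).1
  apply Submodule.eq_of_le_of_finrank_le (range_periodHomPair_le (N := N))
  rw [finrank_range_periodHomPair]
  have h2 := (parabolicHoms_bound N).2
  have h3 : (finrank ℂ (parabolicHoms ℂ (Gamma0 N) ℂ) : ℚ)
      ≤ ((2 * finrank ℂ (CuspForm (Gamma0 N) 2) : ℕ) : ℚ) := by
    push_cast
    linarith
  exact_mod_cast h3

end Fermat.Agent.S21Aux
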